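import Mathlib
import Fermat.Prelude.Def_EllipticCurve_FrobeniusTrace

open scoped Pointwise
open Polynomial

namespace Fermat.Agent.Common_helper32

variable {K : Type*} [Field K]

/-- An element lying in every valuation subring is integral over `ℤ`. -/
theorem isIntegral_of_forall_mem_valuationSubring (y : K)
    (h : ∀ V : ValuationSubring K, y ∈ V) : IsIntegral ℤ y := by
  by_contra hy
  have hy' : y ∉ (integralClosure ℤ K).toSubring := hy
  obtain ⟨V, -, hV⟩ := Subring.exists_le_valuationSubring_of_isIntegrallyClosedIn hy'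
  exact hV (h V)

theorem aeval_int_mem (S : Subring K) (x : K) (hx : x ∈ S) (p : ℤ[X]) : aeval x p ∈ S := by
  rw [aeval_eq_sum_range]
  refine Subring.sum_mem _ fun i _ => ?_
  rw [zsmul_eq_mul]
  exact S.mul_mem (intCast_mem S _) (S.pow_mem hx i)

/-- Horner partial sums. -/
noncomputable def horner (f : ℤ[X]) (x : K) (k : ℕ) : K := aeval x (divX^[k] f)

theorem horner_zero (f : ℤ[X]) (x : K) : horner f x 0 = aeval x f := rfl

theorem coeff_iterate_divX (f : ℤ[X]) (k m : ℕ) : (divX^[k] f).coeff m = f.coeff (m + k) := by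
  induction k generalizing m with
  | zero => simp
  | succ k ih =>
    rw [Function.iterate_succ_apply', coeff_divX, ih]
    congr 1
    omega

theorem horner_succ (f : ℤ[X]) (x : K) (k : ℕ) :
    horner f x k = horner f x (k + 1) * x + (f.coeff k : K) := by
  unfold horner
  rw [Function.iterate_succ_apply']
  conv_lhs => rw [← divX_mul_X_add (divX^[k] f)]
  rw [map_add, map_mul, aeval_X, aeval_C, coeff_iterate_divX, zero_add]
  simp

theorem horner_mem_of_mem (f : ℤ[X]) (x : K) (V : ValuationSubring K) (hx : x ∈ V) (k : ℕ) :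
    horner f x k ∈ V :=
  aeval_int_mem V.toSubring x hx _

theorem horner_mem_of_inv_mem (f : ℤ[X]) (x : K) (hx0 : x ≠ 0) (hf : aeval x f = 0)
    (V : ValuationSubring K) (hx : x⁻¹ ∈ V) (k : ℕ) :
    horner f x k ∈ V := by
  induction k with
  | zero => rw [horner_zero, hf]; exact V.zero_mem
  | succ k ih =>
    have h := horner_succ f x k
    have h2 : horner f x (k + 1) = x⁻¹ * (horner f x k - (f.coeff k : K)) := by
      rw [h]; field_simp; ring
    rw [h2]
    exact V.mul_mem _ _ hx (V.toSubring.sub_mem ih (intCast_mem V.toSubring _))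

theorem horner_isIntegral (f : ℤ[X]) (x : K) (hx0 : x ≠ 0) (hf : aeval x f = 0) (k : ℕ) :
    IsIntegral ℤ (horner f x k) := by
  apply isIntegral_of_forall_mem_valuationSubring
  intro V
  rcases V.mem_or_inv_mem x with hx | hx
  · exact horner_mem_of_mem f x V hx k
  · exact horner_mem_of_inv_mem f x hx0 hf V hx k

theorem mul_horner_isIntegral (f : ℤ[X]) (x : K) (hx0 : x ≠ 0) (hf : aeval x f = 0) (k : ℕ) :
    IsIntegral ℤ (horner f x k * x) := by
  cases k with
  | zero => rw [horner_zero, hf, zero_mul]; exact isIntegral_zero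
  | succ k =>
    have h := horner_succ f x k
    have h2 : horner f x (k + 1) * x = horner f x k - (f.coeff k : K) := by
      rw [h]; ring
    rw [h2]
    exact (horner_isIntegral f x hx0 hf k).sub isIntegral_algebraMap


theorem isIntegral_mem_valuationSubring (A : ValuationSubring K) (x : K) (hx : IsIntegral ℤ x) :
    x ∈ A := by
  have h1 : IsIntegral A x := hx.tower_top
  obtain ⟨y, hy⟩ := IsIntegrallyClosed.isIntegral_iff.mp h1
  rw [← hy]
  exact y.2

/-- Key lemma: elements of a valuation subring over `ℓ` are fractions of algebraic integers with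
unit denominators. -/
theorem exists_integral_fraction [CharZero K] (A : ValuationSubring K) (ℓ : ℕ) (hℓ : ℓ.Prime)
    (hA : (ℓ : K) ∈ A.nonunits) (x : K) (hxA : x ∈ A) (hx : IsAlgebraic ℤ x) :
    ∃ s t : K, IsIntegral ℤ s ∧ IsIntegral ℤ t ∧ s ∉ A.nonunits ∧ s * x = t := by
  by_cases hx0 : x = 0
  · refine ⟨1, 0, isIntegral_one, isIntegral_zero, ?_, by simp [hx0]⟩
    rw [A.mem_nonunits_iff, map_one]
    exact lt_irrefl _
  obtain ⟨p, hp0, hp⟩ := hx
  set f := p.primPart with hf_def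
  have hfx : aeval x f = 0 := aeval_primPart_eq_zero hp0 hp
  have hprim : f.IsPrimitive := p.isPrimitive_primPart
  -- some coefficient is not divisible by ℓ
  have hex : ∃ i, ¬ (ℓ : ℤ) ∣ f.coeff i := by
    by_contra hcon
    push Not at hcon
    have h1 : C (ℓ : ℤ) ∣ f := (C_dvd_iff_dvd_coeff _ _).mpr hcon
    have h2 := hprim _ h1
    have h3 : ((ℓ : ℤ)).natAbs = 1 := Int.isUnit_iff_natAbs_eq.mp h2
    simp at h3
    exact hℓ.one_lt.ne' h3
  -- the largest such index
  have hbdd : ∀ i, ¬ (ℓ : ℤ) ∣ f.coeff i → i ≤ f.natDegree := by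
    intro i hi
    by_contra hlt
    push Not at hlt
    rw [coeff_eq_zero_of_natDegree_lt hlt] at hi
    exact hi (dvd_zero _)
  classical
  let j := Nat.findGreatest (fun i => ¬ (ℓ : ℤ) ∣ f.coeff i) f.natDegree
  obtain ⟨i0, hi0⟩ := hex
  have hj : ¬ (ℓ : ℤ) ∣ f.coeff j := Nat.findGreatest_spec (P := fun i => ¬ (ℓ : ℤ) ∣ f.coeff i) (hbdd i0 hi0) hi0
  have hgt : ∀ i, j < i → (ℓ : ℤ) ∣ f.coeff i := by
    intro i hi
    by_contra hcon
    exact absurd (Nat.le_findGreatest (P := fun i => ¬ (ℓ : ℤ) ∣ f.coeff i) (hbdd i hcon) hcon) (not_le.mpr hi)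
  refine ⟨horner f x j, horner f x j * x, horner_isIntegral f x hx0 hfx j,
    mul_horner_isIntegral f x hx0 hfx j, ?_, rfl⟩
  -- valuation computation
  rw [A.mem_nonunits_iff, not_lt]
  have hℓv : A.valuation (ℓ : K) < 1 := A.mem_nonunits_iff.mp hA
  have hxv : A.valuation x ≤ 1 := (A.valuation_le_one_iff x).mpr hxA
  -- the higher Horner sum is divisible by ℓ
  have hdvd : C (ℓ : ℤ) ∣ divX^[j + 1] f := by
    rw [C_dvd_iff_dvd_coeff]
    intro m
    rw [coeff_iterate_divX]
    exact hgt _ (by omega)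
  obtain ⟨g, hg⟩ := hdvd
  have hsmall : A.valuation (horner f x (j + 1) * x) < 1 := by
    have : horner f x (j + 1) = (ℓ : K) * aeval x g := by
      unfold horner
      rw [hg, map_mul, aeval_C]
      simp
    rw [this, map_mul, map_mul]
    have hg1 : A.valuation (aeval x g) ≤ 1 :=
      (A.valuation_le_one_iff _).mpr (aeval_int_mem A.toSubring x hxA g)
    calc A.valuation (ℓ : K) * A.valuation (aeval x g) * A.valuation x
        ≤ A.valuation (ℓ : K) * 1 * 1 := by gcongr
      _ < 1 := by simpa using hℓv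
  -- the coefficient a_j is a unit
  have hcop : IsCoprime (f.coeff j) (ℓ : ℤ) := by
    rw [isCoprime_comm]
    exact (Nat.prime_iff_prime_int.mp hℓ).coprime_iff_not_dvd.mpr hj
  obtain ⟨u, w, huw⟩ := hcop
  have hunit : A.valuation ((f.coeff j : ℤ) : K) = 1 := by
    have h1 : A.valuation ((u : K) * (f.coeff j : K)) = 1 := by
      have : (u : K) * (f.coeff j : K) = 1 + (-(w : K) * (ℓ : K)) := by
        have := congrArg (fun z : ℤ => (z : K)) huw
        push_cast at this
        linear_combination this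
      rw [this]
      apply Valuation.map_one_add_of_lt
      rw [map_mul, Valuation.map_neg]
      have hw : A.valuation (w : K) ≤ 1 := (A.valuation_le_one_iff _).mpr (intCast_mem A.toSubring w)
      calc A.valuation (w : K) * A.valuation (ℓ : K) ≤ 1 * A.valuation (ℓ : K) := by gcongr
        _ < 1 := by simpa using hℓv
    have hu : A.valuation (u : K) ≤ 1 := (A.valuation_le_one_iff _).mpr (intCast_mem A.toSubring u)
    have ha : A.valuation ((f.coeff j : ℤ) : K) ≤ 1 :=
      (A.valuation_le_one_iff _).mpr (intCast_mem A.toSubring _)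
    rw [map_mul] at h1
    apply le_antisymm ha
    by_contra hlt
    push Not at hlt
    have : A.valuation (u : K) * A.valuation ((f.coeff j : ℤ) : K) < 1 := by
      calc A.valuation (u : K) * A.valuation ((f.coeff j : ℤ) : K)
          ≤ 1 * A.valuation ((f.coeff j : ℤ) : K) := by gcongr
        _ < 1 := by simpa using hlt
    exact absurd h1 this.ne
  rw [horner_succ f x j, add_comm, Valuation.map_add_eq_of_lt_left, hunit]
  rw [hunit]
  exact hsmall


noncomputable abbrev Qb := AlgebraicClosure ℚ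
noncomputable abbrev GQ := (AlgebraicClosure ℚ ≃ₐ[ℚ] AlgebraicClosure ℚ)
noncomputable abbrev Zb := integralClosure ℤ (AlgebraicClosure ℚ)

/-- The inclusion of the algebraic integers into a valuation subring. -/
noncomputable def toVal (A : ValuationSubring Qb) : Zb →+* A where
  toFun b := ⟨b.1, isIntegral_mem_valuationSubring A b.1 b.2⟩
  map_one' := rfl
  map_mul' _ _ := rfl
  map_zero' := rfl
  map_add' _ _ := rfl

/-- The center of a valuation subring on the algebraic integers. -/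
noncomputable def centerIdeal (A : ValuationSubring Qb) : Ideal Zb :=
  (IsLocalRing.maximalIdeal A).comap (toVal A)

theorem mem_centerIdeal (A : ValuationSubring Qb) (b : Zb) :
    b ∈ centerIdeal A ↔ (b : Qb) ∈ A.nonunits := by
  unfold centerIdeal
  rw [Ideal.mem_comap, A.valuation_lt_one_iff, A.mem_nonunits_iff]
  rfl

instance centerIdeal_isPrime (A : ValuationSubring Qb) : (centerIdeal A).IsPrime :=
  Ideal.comap_isPrime _ _

theorem centerIdeal_liesOver (A : ValuationSubring Qb) (ℓ : ℕ) (hℓ : ℓ.Prime)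
    (hA : (ℓ : Qb) ∈ A.nonunits) : (centerIdeal A).LiesOver (Ideal.span {(ℓ : ℤ)}) := by
  constructor
  have hmax : (Ideal.span {(ℓ : ℤ)}).IsMaximal :=
    PrincipalIdealRing.isMaximal_of_irreducible (Nat.prime_iff_prime_int.mp hℓ).irreducible
  apply hmax.eq_of_le
  · intro h
    have h1 : (1 : ℤ) ∈ Ideal.under ℤ (centerIdeal A) := by rw [h]; trivial
    rw [Ideal.under_def, Ideal.mem_comap, mem_centerIdeal, A.mem_nonunits_iff] at h1
    simp at h1
  · rw [Ideal.span_singleton_le_iff_mem, Ideal.under_def, Ideal.mem_comap, mem_centerIdeal]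
    simpa using hA


theorem ratAlgebra_eq :
    (DivisionRing.toRatAlgebra : Algebra ℚ (AlgebraicClosure ℚ)) = AlgebraicClosure.instAlgebra ℚ :=
  rfl

instance isAlgebraic_Qb : Algebra.IsAlgebraic ℚ (AlgebraicClosure ℚ) := by
  have h := AlgebraicClosure.isAlgebraic ℚ
  rw [← ratAlgebra_eq] at h
  exact h

instance isAlgClosure_Qb : IsAlgClosure ℚ (AlgebraicClosure ℚ) := ⟨inferInstance, inferInstance⟩

theorem frobenius_surjective_quot (Q : Ideal Zb) (ℓ : ℕ) (hℓ : ℓ.Prime) [ExpChar (Zb ⧸ Q) ℓ] :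
    Function.Surjective (frobenius (Zb ⧸ Q) ℓ) := by
  intro y
  obtain ⟨b, rfl⟩ := Ideal.Quotient.mk_surjective y
  obtain ⟨z, hz⟩ := IsAlgClosed.exists_pow_nat_eq (b : Qb) hℓ.pos
  have hzint : IsIntegral ℤ z := by
    apply IsIntegral.of_pow hℓ.pos
    rw [hz]
    exact b.2
  refine ⟨Ideal.Quotient.mk Q ⟨z, hzint⟩, ?_⟩
  rw [frobenius_def, ← map_pow]
  congr 1
  exact Subtype.ext hz

section
variable (A : ValuationSubring Qb) (ℓ : ℕ) (hℓ : ℓ.Prime) (hA : (ℓ : Qb) ∈ A.nonunits)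

include hℓ hA in
theorem charP_quot : CharP (Zb ⧸ centerIdeal A) ℓ := by
  have h0 : ((ℓ : ℕ) : Zb ⧸ centerIdeal A) = 0 := by
    have : ((ℓ : ℕ) : Zb ⧸ centerIdeal A) = Ideal.Quotient.mk (centerIdeal A) (ℓ : Zb) := by simp
    rw [this, Ideal.Quotient.eq_zero_iff_mem, mem_centerIdeal]
    simpa using hA
  have := CharP.ringChar_of_prime_eq_zero hℓ h0
  exact this ▸ ringChar.charP _

/-- The discrete topology on the algebraic integers (used locally only). -/
@[reducible] def topZb : TopologicalSpace Zb := ⊥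

attribute [local instance] topZb

theorem discreteTopology_Zb : DiscreteTopology Zb := ⟨rfl⟩

attribute [local instance] discreteTopology_Zb

instance isInvariant_Zb : Algebra.IsInvariant ℤ Zb GQ := by
  refine ⟨fun b hb => ?_⟩
  have h1 : (b : Qb) ∈ Set.range (algebraMap ℚ Qb) := by
    rw [InfiniteGalois.mem_range_algebraMap_iff_fixed]
    intro σ
    have := congrArg Subtype.val (hb σ)
    exact this
  obtain ⟨q, hq⟩ := h1
  have hint : IsIntegral ℤ q := by
    have hb' : IsIntegral ℤ (b : Qb) := b.2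
    rw [← hq] at hb'
    exact (isIntegral_algebraMap_iff (FaithfulSMul.algebraMap_injective ℚ Qb)).mp hb'
  obtain ⟨n, hn⟩ := IsIntegrallyClosed.algebraMap_eq_of_integral hint
  refine ⟨n, Subtype.ext ?_⟩
  rw [← hq, ← hn]
  simp

theorem continuousSMul_Zb : ContinuousSMul GQ Zb := by
  refine ⟨?_⟩
  rw [continuous_discrete_rng]
  intro b
  rw [isOpen_prod_iff]
  rintro σ x (hx : σ • x = b)
  refine ⟨(fun τ => σ⁻¹ * τ) ⁻¹' (MulAction.stabilizer GQ (x : Qb) : Set GQ) , {x}, ?_,
    isOpen_discrete _, ?_, rfl, ?_⟩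
  · exact (stabilizer_isOpen_of_isIntegral (K := ℚ) (x : Qb)).preimage (continuous_const_mul σ⁻¹)
  · simp
  · rintro ⟨τ, y⟩ ⟨hτ, hy⟩
    simp only [Set.mem_singleton_iff] at hy
    subst hy
    simp only [Set.mem_preimage, SetLike.mem_coe, MulAction.mem_stabilizer_iff] at hτ
    show τ • y = b
    rw [← hx]
    apply Subtype.ext
    show τ • (y : Qb) = σ • (y : Qb)
    rw [mul_smul] at hτ
    have := congrArg (fun z => σ • z) hτ
    simpa using this

attribute [local instance] continuousSMul_Zb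

include hℓ hA in
theorem exists_frob_on_integers :
    ∃ σ : GQ, σ • centerIdeal A = centerIdeal A ∧
      ∀ b : Zb, σ • b - b ^ ℓ ∈ centerIdeal A := by
  have hlies := centerIdeal_liesOver A ℓ hℓ hA
  have hchar := charP_quot A ℓ hℓ hA
  have hexp : ExpChar (Zb ⧸ centerIdeal A) ℓ := ExpChar.prime hℓ
  have hperf : PerfectRing (Zb ⧸ centerIdeal A) ℓ :=
    PerfectRing.ofSurjective _ _ (frobenius_surjective_quot _ ℓ hℓ)
  let l : (Zb ⧸ centerIdeal A) ≃ₐ[ℤ ⧸ Ideal.span {(ℓ : ℤ)}] (Zb ⧸ centerIdeal A) :=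
    { frobeniusEquiv (Zb ⧸ centerIdeal A) ℓ with
      commutes' := by
        intro r
        obtain ⟨n, rfl⟩ := Ideal.Quotient.mk_surjective r
        show frobenius _ ℓ _ = _
        rw [eq_intCast (Ideal.Quotient.mk _) n, map_intCast, map_intCast] }
  obtain ⟨σ, hσ⟩ := Ideal.Quotient.stabilizerHom_surjective_of_profinite (G := GQ)
    (Ideal.span {(ℓ : ℤ)}) (centerIdeal A) l
  refine ⟨σ.1, σ.2, fun b => ?_⟩
  have h := DFunLike.congr_fun hσ (Ideal.Quotient.mk _ b)
  rw [← Ideal.Quotient.eq, map_pow]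
  exact h


theorem isAlgebraic_int (x : Qb) : IsAlgebraic ℤ x := by
  have h : IsAlgebraic ℚ x := Algebra.IsAlgebraic.isAlgebraic x
  exact (IsFractionRing.isAlgebraic_iff ℤ ℚ Qb).mpr h

theorem smul_mem_centerIdeal_iff (σ : GQ) (hσ : σ • centerIdeal A = centerIdeal A) (b : Zb) :
    σ • b ∈ centerIdeal A ↔ b ∈ centerIdeal A := by
  conv_lhs => rw [← hσ]
  exact Ideal.smul_mem_pointwise_smul_iff

include hℓ hA in
theorem smul_mem_of_stab (σ : GQ) (hσ : σ • centerIdeal A = centerIdeal A) (x : Qb) (hx : x ∈ A) :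
    σ • x ∈ A := by
  obtain ⟨s, t, hs, ht, hsA, hst⟩ := exists_integral_fraction A ℓ hℓ hA x hx (isAlgebraic_int x)
  have hs' : (σ • (⟨s, hs⟩ : Zb) : Zb) ∉ centerIdeal A := by
    rw [smul_mem_centerIdeal_iff A σ hσ, mem_centerIdeal]
    exact hsA
  rw [mem_centerIdeal, A.mem_nonunits_iff, not_lt] at hs'
  have hs1 : A.valuation (σ • s) ≤ 1 :=
    (A.valuation_le_one_iff _).mpr (isIntegral_mem_valuationSubring A _ (σ • (⟨s, hs⟩ : Zb)).2)
  have hs2 : A.valuation (σ • s) = 1 := le_antisymm hs1 hs'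
  have ht1 : A.valuation (σ • t) ≤ 1 :=
    (A.valuation_le_one_iff _).mpr (isIntegral_mem_valuationSubring A _ (σ • (⟨t, ht⟩ : Zb)).2)
  rw [← A.valuation_le_one_iff]
  have : σ • t = σ • s * σ • x := by rw [← smul_mul', hst]
  rw [this, map_mul, hs2, one_mul] at ht1
  exact ht1

include hℓ hA in
theorem mem_decompositionSubgroup_of_stab (σ : GQ) (hσ : σ • centerIdeal A = centerIdeal A) :
    σ ∈ A.decompositionSubgroup ℚ := by
  have hσ' : σ⁻¹ • centerIdeal A = centerIdeal A := by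
    conv_lhs => rw [← hσ]
    rw [inv_smul_smul]
  rw [MulAction.mem_stabilizer_iff]
  ext x
  rw [ValuationSubring.mem_pointwise_smul_iff_inv_smul_mem]
  constructor
  · intro h
    have := smul_mem_of_stab A ℓ hℓ hA σ hσ _ h
    rwa [smul_inv_smul] at this
  · intro h
    exact smul_mem_of_stab A ℓ hℓ hA σ⁻¹ hσ' _ h

include hℓ hA in
theorem isFrobeniusAt_of_stab (σ : GQ) (hσ : σ • centerIdeal A = centerIdeal A)
    (hfrob : ∀ b : Zb, σ • b - b ^ ℓ ∈ centerIdeal A) : A.IsFrobeniusAt σ ℓ := by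
  refine ⟨mem_decompositionSubgroup_of_stab A ℓ hℓ hA σ hσ, fun x => ?_⟩
  obtain ⟨a, rfl⟩ := IsLocalRing.residue_surjective x
  rw [← IsLocalRing.ResidueField.residue_smul, ← map_pow, ← sub_eq_zero, ← map_sub,
    IsLocalRing.residue_eq_zero_iff, A.valuation_lt_one_iff]
  show A.valuation (σ • (a : Qb) - (a : Qb) ^ ℓ) < 1
  obtain ⟨s, t, hs, ht, hsA, hst⟩ :=
    exists_integral_fraction A ℓ hℓ hA a a.2 (isAlgebraic_int _)
  have hs' : (σ • (⟨s, hs⟩ : Zb) : Zb) ∉ centerIdeal A := by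
    rw [smul_mem_centerIdeal_iff A σ hσ, mem_centerIdeal]
    exact hsA
  rw [mem_centerIdeal, A.mem_nonunits_iff, not_lt] at hs'
  have hs1 : A.valuation (σ • s) ≤ 1 :=
    (A.valuation_le_one_iff _).mpr (isIntegral_mem_valuationSubring A _ (σ • (⟨s, hs⟩ : Zb)).2)
  have hs2 : A.valuation (σ • s) = 1 := le_antisymm hs1 hs'
  have hq1 := hfrob ⟨s, hs⟩
  have hq2 := hfrob ⟨t, ht⟩
  rw [mem_centerIdeal, A.mem_nonunits_iff] at hq1 hq2
  have hq1' : A.valuation (σ • s - s ^ ℓ) < 1 := hq1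
  have hq2' : A.valuation (σ • t - t ^ ℓ) < 1 := hq2
  have ha1 : A.valuation ((a : Qb) ^ ℓ) ≤ 1 := (A.valuation_le_one_iff _).mpr (A.pow_mem a.2 ℓ)
  have key : σ • s * (σ • (a : Qb) - (a : Qb) ^ ℓ) =
      (σ • t - t ^ ℓ) - (σ • s - s ^ ℓ) * (a : Qb) ^ ℓ := by
    have h1 : σ • t = σ • s * σ • (a : Qb) := by rw [← smul_mul', hst]
    rw [h1, ← hst]
    ring
  have hlt : A.valuation (σ • s * (σ • (a : Qb) - (a : Qb) ^ ℓ)) < 1 := by
    rw [key]
    apply lt_of_le_of_lt (Valuation.map_sub _ _ _)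
    apply max_lt hq2'
    rw [map_mul]
    calc A.valuation (σ • s - s ^ ℓ) * A.valuation ((a : Qb) ^ ℓ)
        ≤ A.valuation (σ • s - s ^ ℓ) * 1 := by gcongr
      _ < 1 := by simpa using hq1'
  rwa [map_mul, hs2, one_mul] at hlt

include hℓ hA in
/-- Every valuation subring of `ℚ̄` over a prime `ℓ` has a Frobenius element. -/
theorem exists_isFrobeniusAt_of_liesOver : ∃ σ : GQ, A.IsFrobeniusAt σ ℓ := by
  obtain ⟨σ, hσ, hfrob⟩ := exists_frob_on_integers A ℓ hℓ hA
  exact ⟨σ, isFrobeniusAt_of_stab A ℓ hℓ hA σ hσ hfrob⟩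

end

/-- There is a valuation subring of `ℚ̄` over any prime `ℓ`. -/
theorem exists_liesOverPrime (ℓ : ℕ) (hℓ : ℓ.Prime) :
    ∃ A : ValuationSubring (AlgebraicClosure ℚ), A.LiesOverPrime ℓ := by
  let R : Subring Qb := (Int.castRingHom Qb).range
  let ℓ' : R := ⟨(ℓ : Qb), ⟨(ℓ : ℤ), by simp⟩⟩
  have hI : Ideal.span {ℓ'} ≠ ⊤ := by
    intro h
    have h1 : (1 : R) ∈ Ideal.span {ℓ'} := by rw [h]; trivial
    obtain ⟨⟨c, n, rfl⟩, hc⟩ := Ideal.mem_span_singleton'.mp h1
    have h2 : ((n * (ℓ : ℤ) : ℤ) : Qb) = ((1 : ℤ) : Qb) := by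
      have := congrArg Subtype.val hc
      push_cast
      simpa using this
    have h3 : n * (ℓ : ℤ) = 1 := Int.cast_injective h2
    have h4 : (ℓ : ℤ) ∣ 1 := Dvd.intro_left n h3
    have h5 : ℓ ∣ 1 := by exact_mod_cast h4
    exact hℓ.one_lt.ne' (Nat.dvd_one.mp h5)
  obtain ⟨B, -, hB⟩ := Ideal.image_subset_nonunits_valuationSubring _ hI
  exact ⟨B, hB ⟨ℓ', Ideal.subset_span rfl, rfl⟩⟩

/-- Existence of Frobenius elements in the absolute Galois group of `ℚ`. -/
theorem exists_isFrobeniusAt (ℓ : ℕ) (hℓ : ℓ.Prime) :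
    ∃ (A : ValuationSubring (AlgebraicClosure ℚ))
      (σ : AlgebraicClosure ℚ ≃ₐ[ℚ] AlgebraicClosure ℚ),
      A.LiesOverPrime ℓ ∧ A.IsFrobeniusAt σ ℓ := by
  obtain ⟨A, hA⟩ := exists_liesOverPrime ℓ hℓ
  obtain ⟨σ, hσ⟩ := exists_isFrobeniusAt_of_liesOver A ℓ hℓ hA
  exact ⟨A, σ, hA, hσ⟩

end Fermat.Agent.Common_helper32
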